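/-
Project S35, instance layer [TORIC-INST] (helper12): **[L]-φ ON THE THREE CHARTS OF A FUNCTION
FIELD** (abstract; cover-agnostic).  Prefix `s35fh_`.

`A0` a discrete valuation ring with uniformiser `π`, `L = Frac A0` of characteristic zero, `F0 / L` a
function field with coordinate `x`; `V1, V2` the two valuation rings over the Gauss ring of `A0[x]`
(`H : ssm_tp_Hyp`), `τ` an automorphism of `F0`, semilinear over `L`, preserving `𝔪(V1)`, `𝔪(V2)`.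

* `s35fh_ord_tau`        : `m ∣ ord_P g` for all places `P` ⟹ `m ∣ ord_P (τ g)` for all places;
* `s35fh_locAt_chart`    : helper10's `s35l_locAt_chart'` on the chart `fc_chart A0 {y}` in valuation
  language (`hpts`: every closed point is smooth or a regular Frobenius-fixed node);
* `s35fh_locAt_smooth_pt`: helper10's `s35l_locAt_smooth` at ONE smooth closed point, in the form
  `hloc` of `sfc_main`, for ANY `f ≡ 1`;
* `s35fh_locProvider_abs`: **`tori_LocProvider L π x τ Q (P B₁₂ V1) (P B₁₂ V2) m`** from `hpts` on the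
  chart `B_x` and the smoothness of the points at infinity of `B_{x⁻¹}` (helper20's
  `s35ti_locAt_chart2` transfers everything else from `B_x`).
-/
import Mathlib
import Fermat.Agent.S35.LocalPhi.Main
import Fermat.Agent.S35.ToricInst.Xfer
import Fermat.Agent.S35.Toric.FunField
import Fermat.Agent.SS.Model.ThickBase
import Fermat.Agent.SS.Model.NodeCross
import Fermat.Prelude.Def_AlgebraicCurve_BaseChangeGalois

set_option autoImplicit false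
set_option linter.unusedSectionVars false
set_option linter.unusedVariables false
set_option linter.style.haveILetI false

namespace Fermat.Agent.S35

open Fermat.Agent.SS Fermat.Agent.JT3 IntermediateField AlgebraicCurve

universe v

section Abs

variable {A0 L : Type*} {F0 : Type v} [CommRing A0] [IsDomain A0] [IsDiscreteValuationRing A0]
  [Field L] [CharZero L] [Field F0] [Algebra A0 L] [IsFractionRing A0 L] [Algebra L F0]
  [Algebra A0 F0] [IsScalarTower A0 L F0]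

omit [CommRing A0] [IsDomain A0] [IsDiscreteValuationRing A0] [CharZero L] [Algebra A0 L]
  [IsFractionRing A0 L] [Algebra A0 F0] [IsScalarTower A0 L F0] in
/-- the orders of `τ g` at the places of `F0 / L`, `τ` semilinear over `L`. -/
theorem s35fh_ord_tau (τ : F0 ≃+* F0) (τL : L ≃+* L)
    (hτL : ∀ a : L, τ (algebraMap L F0 a) = algebraMap L F0 (τL a)) (m : ℕ) {g : F0}
    (hord : ∀ P : Place L F0, (m : ℤ) ∣ P.ord g) (P : Place L F0) : (m : ℤ) ∣ P.ord (τ g) := by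
  let G : SemilinearAut L F0 := ⟨(τ, τL), hτL⟩
  have h := SemilinearAut.ord_smul G (G⁻¹ • P) g
  rw [smul_inv_smul] at h
  have e : G • g = τ g := rfl
  rw [← e, h]
  exact hord _

/-- **helper10's `s35l_locAt_chart'` on the chart `fc_chart A0 {y}`, valuation language.** -/
theorem s35fh_locAt_chart {π : A0} (hπ : Irreducible π) {y : F0} (hy : Transcendental L y)
    [FiniteDimensional L⟮y⟯ F0] {V1 V2 : ValuationSubring F0}
    (H : ssm_tp_Hyp (algebraMap A0 (Algebra.adjoin A0 ({y} : Set F0)) π) V1 V2)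
    (τ : F0 ≃+* F0) (τL : L ≃+* L)
    (hτL : ∀ a : L, τ (algebraMap L F0 a) = algebraMap L F0 (τL a))
    (hτV1 : ∀ z : F0, τ z ∈ V1.nonunits ↔ z ∈ V1.nonunits)
    (hτV2 : ∀ z : F0, τ z ∈ V2.nonunits ↔ z ∈ V2.nonunits)
    {Q : ℕ} (hQ : 2 ≤ Q)
    (hpts : ∀ 𝔫 : Ideal (fc_chart A0 ({y} : Set F0)), 𝔫.IsMaximal →
      algebraMap A0 (fc_chart A0 ({y} : Set F0)) π ∈ 𝔫 →
      ss_SmoothAt π (fc_chart A0 ({y} : Set F0)) 𝔫 ∨
        s35l_NodeAt π τ Q (ssm_tp_P (fc_chart A0 ({y} : Set F0)) V1)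
          (ssm_tp_P (fc_chart A0 ({y} : Set F0)) V2) 𝔫)
    {m : ℕ} (hm : m ≠ 0) {g : F0} (hg : g ≠ 0)
    (hg1 : g ∈ V1 ∧ g ∉ V1.nonunits) (hg2 : g ∈ V2 ∧ g ∉ V2.nonunits)
    (h4a : τ g / g ^ Q - 1 ∈ V1.nonunits ∧ τ g / g ^ Q - 1 ∈ V2.nonunits)
    (hord : ∀ P : Place L F0, (m : ℤ) ∣ P.ord g) :
    tori_LocAt π m (τ g / g ^ Q) (fc_chart A0 ({y} : Set F0)) := by
  have hyA : Transcendental A0 y := fc_ff_transcendental (L := L) hy
  haveI : IsIntegrallyClosed (Algebra.adjoin A0 ({y} : Set F0)) := fc_ff_isIntegrallyClosed hyA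
  haveI : FaithfulSMul (Algebra.adjoin A0 ({y} : Set F0)) F0 :=
    (faithfulSMul_iff_algebraMap_injective _ _).2 Subtype.val_injective
  have hC := ssm_tp_ff_chart (L := L) hπ hy
  haveI := ssm_ths_chart_isFractionRing (A0 := A0) (L := L) y
  haveI := ssm_ths_chart_isNoetherianRing (A0 := A0) (L := L) hy
  haveI := ssm_ths_chart_isIntegrallyClosed (A0 := A0) (L := L) y
  haveI := H.P1_isPrime hC
  haveI := H.P2_isPrime hC
  have hϖ0 : algebraMap A0 F0 π ≠ 0 := H.algebraMap_ne_zero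
  have hg1' : ssl_UnitAt F0 (ssm_tp_P (fc_chart A0 ({y} : Set F0)) V1) g := by
    obtain ⟨s, t, hs, ht, hst⟩ := (tori_tp_unitV1_iff H hC).1 hg1
    exact ⟨t, s, ht, hs, by rw [mul_comm]; exact hst⟩
  have hg2' : ssl_UnitAt F0 (ssm_tp_P (fc_chart A0 ({y} : Set F0)) V2) g := by
    obtain ⟨s, t, hs, ht, hst⟩ := (tori_tp_unitV2_iff H hC).1 hg2
    exact ⟨t, s, ht, hs, by rw [mul_comm]; exact hst⟩
  have h4a' : τ g / g ^ Q - 1 ∈
      sfc_piO (fc_chart A0 ({y} : Set F0)).toSubring (algebraMap A0 F0 π) :=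
    (H.mem_piO_iff hC).2 h4a
  exact s35l_locAt_chart' (K := L) hπ hϖ0 (H.P_inf hC _ rfl) (H.P_not_le12 hC) (H.P_not_le21 hC)
    τ hQ
    (fun b b' hb h => by
      rw [H.mem_P1 hC] at h ⊢
      rw [hb]
      exact (hτV1 _).2 h)
    (fun b b' hb h => by
      rw [H.mem_P2 hC] at h ⊢
      rw [hb]
      exact (hτV2 _).2 h)
    hpts hm hg hg1' hg2' h4a' hord (s35fh_ord_tau τ τL hτL m hord)

/-- **helper10's `s35l_locAt_smooth` at one smooth closed point of the chart `fc_chart A0 {y}`**, in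
the form `hloc` of `sfc_main`, valuation language; `f` is ANY function `≡ 1` with orders divisible
by `m`. -/
theorem s35fh_locAt_smooth_pt {π : A0} (hπ : Irreducible π) {y : F0} (hy : Transcendental L y)
    [FiniteDimensional L⟮y⟯ F0] {V1 V2 : ValuationSubring F0}
    (H : ssm_tp_Hyp (algebraMap A0 (Algebra.adjoin A0 ({y} : Set F0)) π) V1 V2)
    {m : ℕ} (hm : m ≠ 0) {f : F0} (hf : f ≠ 0)
    (h4a : f - 1 ∈ V1.nonunits ∧ f - 1 ∈ V2.nonunits)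
    (hord : ∀ P : Place L F0, (m : ℤ) ∣ P.ord f)
    (𝔫 : Ideal (fc_chart A0 ({y} : Set F0))) (h𝔫 : 𝔫.IsMaximal)
    (hπ𝔫 : algebraMap A0 (fc_chart A0 ({y} : Set F0)) π ∈ 𝔫)
    (hsm : ss_SmoothAt π (fc_chart A0 ({y} : Set F0)) 𝔫) :
    ∃ (b1 : fc_chart A0 ({y} : Set F0)) (h : F0), b1 ∉ 𝔫 ∧
      h ^ m * f ∈ fc_chart A0 ({y} : Set F0) ∧
      h - (b1 : F0) ∈ sfc_piO (fc_chart A0 ({y} : Set F0)).toSubring (algebraMap A0 F0 π) := by
  have hyA : Transcendental A0 y := fc_ff_transcendental (L := L) hy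
  haveI : IsIntegrallyClosed (Algebra.adjoin A0 ({y} : Set F0)) := fc_ff_isIntegrallyClosed hyA
  haveI : FaithfulSMul (Algebra.adjoin A0 ({y} : Set F0)) F0 :=
    (faithfulSMul_iff_algebraMap_injective _ _).2 Subtype.val_injective
  have hC := ssm_tp_ff_chart (L := L) hπ hy
  haveI := ssm_ths_chart_isFractionRing (A0 := A0) (L := L) y
  haveI := ssm_ths_chart_isNoetherianRing (A0 := A0) (L := L) hy
  haveI := ssm_ths_chart_isIntegrallyClosed (A0 := A0) (L := L) y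
  haveI := H.P1_isPrime hC
  haveI := H.P2_isPrime hC
  haveI h𝔫p : 𝔫.IsPrime := h𝔫.isPrime
  haveI := ssl_loc_isNoetherianRing (F0 := F0) 𝔫
  haveI := ssl_loc_isIntegrallyClosed (F0 := F0) 𝔫
  have hϖ0 : algebraMap A0 F0 π ≠ 0 := H.algebraMap_ne_zero
  have h4a' : f - 1 ∈
      sfc_piO (fc_chart A0 ({y} : Set F0)).toSubring (algebraMap A0 F0 π) :=
    (H.mem_piO_iff hC).2 h4a
  obtain ⟨r, y', s, hs, hsy, hf', hr⟩ :=
    s35l_locAt_smooth 𝔫 hϖ0 hπ𝔫 (H.P_inf hC _ rfl) (H.P_not_le12 hC) (H.P_not_le21 hC) hsm hm hf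
      h4a' fun 𝔮 h𝔮 =>
      ssl_hdiv_of_places (K := L) (R := ssl_locSub F0 𝔫) hπ hf m hord 𝔮 h𝔮
  exact sfc_loc_of_factor _ π (s35l_hnu 𝔫 hϖ0 hπ𝔫) m hm _ 𝔫 hs hsy hf' hr

/-- **[L]-φ on the three charts of a function field**: `tori_LocProvider` from the closed points of
the chart `B_x` (smooth, or regular Frobenius-fixed nodes) and the smoothness of the points at
infinity of the chart `B_{x⁻¹}`. -/
theorem s35fh_locProvider_abs {π : A0} (hπ : Irreducible π) {x : F0} (hx : Transcendental L x)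
    [FiniteDimensional L⟮x⟯ F0] {V1 V2 : ValuationSubring F0}
    (H : ssm_tp_Hyp (algebraMap A0 (Algebra.adjoin A0 ({x} : Set F0)) π) V1 V2)
    (hxS1 : x ∈ sfc_S (fc_chart A0 ({x} : Set F0)).toSubring (algebraMap A0 F0 π))
    (hxS2 : x⁻¹ ∈ sfc_S (fc_chart A0 ({x⁻¹} : Set F0)).toSubring (algebraMap A0 F0 π))
    (τ : F0 ≃+* F0) (τL : L ≃+* L)
    (hτL : ∀ a : L, τ (algebraMap L F0 a) = algebraMap L F0 (τL a))
    (hτV1 : ∀ z : F0, τ z ∈ V1.nonunits ↔ z ∈ V1.nonunits)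
    (hτV2 : ∀ z : F0, τ z ∈ V2.nonunits ↔ z ∈ V2.nonunits)
    {Q : ℕ} (hQ : 2 ≤ Q)
    (hpts : ∀ 𝔫 : Ideal (fc_chart A0 ({x} : Set F0)), 𝔫.IsMaximal →
      algebraMap A0 (fc_chart A0 ({x} : Set F0)) π ∈ 𝔫 →
      ss_SmoothAt π (fc_chart A0 ({x} : Set F0)) 𝔫 ∨
        s35l_NodeAt π τ Q (ssm_tp_P (fc_chart A0 ({x} : Set F0)) V1)
          (ssm_tp_P (fc_chart A0 ({x} : Set F0)) V2) 𝔫)
    (hinf : ∀ 𝔫 : Ideal (fc_chart A0 ({x⁻¹} : Set F0)), 𝔫.IsMaximal →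
      algebraMap A0 (fc_chart A0 ({x⁻¹} : Set F0)) π ∈ 𝔫 →
      (⟨x⁻¹, fc_x_mem_chart x⁻¹⟩ : fc_chart A0 ({x⁻¹} : Set F0)) ∈ 𝔫 →
      ss_SmoothAt π (fc_chart A0 ({x⁻¹} : Set F0)) 𝔫)
    {m : ℕ} (hm : m ≠ 0) :
    tori_LocProvider L π x τ Q (ssm_tp_P (fc_chart A0 ({x, x⁻¹} : Set F0)) V1)
      (ssm_tp_P (fc_chart A0 ({x, x⁻¹} : Set F0)) V2) m := by
  intro g' hg' hu1 hu2 h4a hord
  have hxA : Transcendental A0 x := fc_ff_transcendental (L := L) hx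
  haveI : IsIntegrallyClosed (Algebra.adjoin A0 ({x} : Set F0)) := fc_ff_isIntegrallyClosed hxA
  haveI : FaithfulSMul (Algebra.adjoin A0 ({x} : Set F0)) F0 :=
    (faithfulSMul_iff_algebraMap_injective _ _).2 Subtype.val_injective
  have hC12 := ssm_tp_ff_chart12 (L := L) hπ hx
  have hg1 := (tori_tp_unitV1_iff H hC12).2 hu1
  have hg2 := (tori_tp_unitV2_iff H hC12).2 hu2
  have h4aV : τ g' / g' ^ Q - 1 ∈ V1.nonunits ∧ τ g' / g' ^ Q - 1 ∈ V2.nonunits :=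
    (H.mem_piO_iff hC12).1 h4a
  have h1 : tori_LocAt π m (τ g' / g' ^ Q) (fc_chart A0 ({x} : Set F0)) :=
    s35fh_locAt_chart hπ hx H τ τL hτL hτV1 hτV2 hQ hpts hm hg' hg1 hg2 h4aV hord
  refine ⟨h1, ?_⟩
  have hxi : Transcendental L x⁻¹ := fun h => hx (IsAlgebraic.inv_iff.mp h)
  haveI hfd2 : FiniteDimensional L⟮x⁻¹⟯ F0 := by
    rw [rt_adjoin_inv]; infer_instance
  have H' := ssm_tp_ff_hyp_inv (L := L) hπ hx H
  have hx0 : x ≠ 0 := by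
    rintro rfl
    exact hx isAlgebraic_zero
  have hτg : τ g' ≠ 0 := (map_ne_zero τ).2 hg'
  have hf0 : τ g' / g' ^ Q ≠ 0 := div_ne_zero hτg (pow_ne_zero Q hg')
  have hordτ := s35fh_ord_tau τ τL hτL m hord
  have hordf : ∀ P : Place L F0, (m : ℤ) ∣ P.ord (τ g' / g' ^ Q) := by
    intro P
    rw [div_eq_mul_inv, P.ord_mul hτg (inv_ne_zero (pow_ne_zero Q hg')), P.ord_inv]
    have h1 : P.ord (g' ^ Q) = (Q : ℤ) * P.ord g' := by
      have := P.ord_zpow g' (Q : ℤ)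
      rwa [zpow_natCast] at this
    rw [h1]
    exact dvd_add (hordτ P) (Dvd.dvd.neg_right (Dvd.dvd.mul_left (hord P) _))
  exact s35ti_locAt_chart2 π hx0 hxS1 hxS2 m hm _ h1 fun 𝔫 h𝔫 hπ𝔫 hy =>
    s35fh_locAt_smooth_pt hπ hxi H' hm hf0 h4aV hordf 𝔫 h𝔫 hπ𝔫 (hinf 𝔫 h𝔫 hπ𝔫 hy)

end Abs

section NodeAbs

variable {A0 : Type*} [CommRing A0] {F0 : Type v} [Field F0] [Algebra A0 F0]

/-- **a regular Frobenius-fixed node from the thickness-one package** (`hthick` shape of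
`ssm_nx_thick` with the uniformiser as constant: `u v = ϖ`) and the local generation of `𝔫` by `ϖ`
and two global equations `UG ∈ P2`, `VG ∈ P1` of the components (`ssm_nx_Cross.cross`). -/
theorem s35fh_nodeAt_of_thick (π : A0) (τ : F0 ≃+* F0) (Q : ℕ) {B : Subalgebra A0 F0}
    (P1 P2 𝔫 : Ideal B) (hP1 : P1 ≤ 𝔫) (hP2 : P2 ≤ 𝔫) (hF : s35l_FrobAt τ Q 𝔫)
    (hthick : ∃ u v : F0, u * v = algebraMap A0 F0 π ∧
      (∃ s t : B, s ∉ 𝔫 ∧ t ∈ P2 ∧ (s : F0) * u = t) ∧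
      (∃ s t : B, s ∉ 𝔫 ∧ t ∈ P1 ∧ (s : F0) * v = t) ∧
      (∀ z ∈ P2, ∃ s c : B, s ∉ 𝔫 ∧ (s : F0) * (z : F0) = u * c) ∧
      (∀ z ∈ P1, ∃ s c : B, s ∉ 𝔫 ∧ (s : F0) * (z : F0) = v * c) ∧
      (∃ s t : B, s ∉ 𝔫 ∧ t ∉ P1 ∧ (s : F0) * u = t) ∧
      (∃ s t : B, s ∉ 𝔫 ∧ t ∉ P2 ∧ (s : F0) * v = t))
    (ϖB UG VG : B) (hϖB : (ϖB : F0) = algebraMap A0 F0 π) (hUG : UG ∈ P2) (hVG : VG ∈ P1)
    (hgen : ∀ x ∈ 𝔫, ∃ s : B, s ∉ 𝔫 ∧ s * x ∈ Ideal.span {ϖB, UG, VG})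
    [h𝔫 : 𝔫.IsPrime] :
    s35l_NodeAt π τ Q P1 P2 𝔫 := by
  obtain ⟨u, v, huv, ⟨su, tu, hsu, htu, hu⟩, ⟨sv, tv, hsv, htv, hv⟩, hP2u, hP1v,
    ⟨su1, tu1, hsu1, htu1, hu1⟩, ⟨sv2, tv2, hsv2, htv2, hv2⟩⟩ := hthick
  have h1 : (1 : B) ∉ 𝔫 := fun h => h𝔫.ne_top ((Ideal.eq_top_iff_one _).2 h)
  refine ⟨hP1, hP2, hF, u, v, 1, by rw [mul_one]; exact huv, ⟨1, 1, h1, h1, by rw [mul_one]⟩,
    ⟨su, tu, hsu, hP2 htu, hu⟩, ⟨sv, tv, hsv, hP1 htv, hv⟩, ?_,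
    ⟨su1, tu1, fun h => hsu1 (hP1 h), htu1, hu1⟩, ⟨sv2, tv2, fun h => hsv2 (hP2 h), htv2, hv2⟩⟩
  intro z hz
  obtain ⟨s, hs, hsz⟩ := hgen z hz
  obtain ⟨a, w, hw, habc⟩ := Ideal.mem_span_insert.1 hsz
  obtain ⟨b, c, hbc⟩ := Ideal.mem_span_pair.1 hw
  obtain ⟨s2, c2, hs2, hc2⟩ := hP2u UG hUG
  obtain ⟨s1, c1, hs1, hc1⟩ := hP1v VG hVG
  refine ⟨s * s2 * s1, s2 * s1 * a, c2 * s1 * b, c1 * s2 * c,
    fun h => (h𝔫.mem_or_mem h).elim (fun h' => (h𝔫.mem_or_mem h').elim hs hs2) hs1, ?_⟩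
  have e : (s : F0) * (z : F0) =
      (a : F0) * algebraMap A0 F0 π + (b : F0) * (UG : F0) + (c : F0) * (VG : F0) := by
    have := congrArg (fun t : B => (t : F0)) habc
    simp only [MulMemClass.coe_mul, AddMemClass.coe_add] at this
    rw [this, ← hbc, ← hϖB]
    push_cast
    exact (add_assoc _ _ _).symm
  push_cast
  calc (s : F0) * (s2 : F0) * (s1 : F0) * (z : F0)
      = (s2 : F0) * (s1 : F0) * ((s : F0) * (z : F0)) := by ring
    _ = (s2 : F0) * (s1 : F0) * ((a : F0) * algebraMap A0 F0 π + (b : F0) * (UG : F0) +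
          (c : F0) * (VG : F0)) := by rw [e]
    _ = algebraMap A0 F0 π * ((s2 : F0) * (s1 : F0) * (a : F0)) +
          ((s2 : F0) * (UG : F0)) * ((s1 : F0) * (b : F0)) +
          ((s1 : F0) * (VG : F0)) * ((s2 : F0) * (c : F0)) := by ring
    _ = algebraMap A0 F0 π * ((s2 : F0) * (s1 : F0) * (a : F0)) +
          u * ((c2 : F0) * (s1 : F0) * (b : F0)) + v * ((c1 : F0) * (s2 : F0) * (c : F0)) := by
        rw [hc2, hc1]; ring

end NodeAbs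

section CrossAbs

open Polynomial

variable {A0 : Type*} [CommRing A0] {K E : Type*} [Field K] [Field E] [Algebra K E]
  [Algebra A0 K] [Algebra A0 E]

/-- **a regular Frobenius-fixed node from the crossing package and thickness one.** -/
theorem s35fh_nodeAt_of_cross {B' : Subalgebra A0 K} {B : Subalgebra A0 E} {φ : B' →+* B}
    {π' : B'} {q : ℕ} {P1 P2 : Ideal B} {lam' : B'} {lamq : B} {c : ℤ[X]}
    (C1 : ssm_nx_Cross B' B φ π' q P1 P2 lam' lamq c) (π : A0)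
    (hπ' : φ π' = algebraMap A0 B π) (τ : E ≃+* E) (Q : ℕ)
    (𝔫 : Ideal B) (h𝔫 : 𝔫.IsMaximal) (hP1 : P1 ≤ 𝔫) (hP2 : P2 ≤ 𝔫) (hF : s35l_FrobAt τ Q 𝔫)
    (hthick : ∃ u v : E, u * v = algebraMap A0 E π ∧
      (∃ s t : B, s ∉ 𝔫 ∧ t ∈ P2 ∧ (s : E) * u = t) ∧
      (∃ s t : B, s ∉ 𝔫 ∧ t ∈ P1 ∧ (s : E) * v = t) ∧
      (∀ z ∈ P2, ∃ s c : B, s ∉ 𝔫 ∧ (s : E) * (z : E) = u * c) ∧
      (∀ z ∈ P1, ∃ s c : B, s ∉ 𝔫 ∧ (s : E) * (z : E) = v * c) ∧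
      (∃ s t : B, s ∉ 𝔫 ∧ t ∉ P1 ∧ (s : E) * u = t) ∧
      (∃ s t : B, s ∉ 𝔫 ∧ t ∉ P2 ∧ (s : E) * v = t)) :
    s35l_NodeAt π τ Q P1 P2 𝔫 := by
  obtain ⟨-, -, -, -, s4, s5, -, -, d9⟩ := C1.cross 𝔫 h𝔫 hP1 hP2
  haveI : 𝔫.IsPrime := h𝔫.isPrime
  exact s35fh_nodeAt_of_thick π τ Q P1 P2 𝔫 hP1 hP2 hF hthick (φ π') _ _
    (by rw [hπ']; rfl) s4 s5 d9

end CrossAbs

end Fermat.Agent.S35
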