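/-
Project S35, HESSE twin (`q ≠ 3`, in the application `q = 2`; coordinate `x = μ - 1`), instance layer:
THE TWO-COMPONENT MODEL OVER ANY NUMBER-FIELD BASE WITH `σ = id`, AS A CLOSED TERM.

`L ⊆ Q̄` a number field containing a primitive `3N'`-th root of unity, `O` a discrete valuation ring
of `L` of residue characteristic `q ≠ 3`, `q ∤ N'`, `π` any uniformiser (`π = q` over the unramified
bases of S35):

* `s35fh_inert_refl` : `ss_Inert O (RingEquiv.refl L)`;
* `s35fh_model`      : `ss_Model π (μ - 1) (RingEquiv.refl _) (RingEquiv.refl _) P1 P2` for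
  `E = hs_E L h3 (N' q)` — the `M` of `tori_core` (helper19) — from `ssm_fhn_model_of_node` at
  `σ := id` and the closed node clause `ssm_nht_nodeHyp` (helper29).

Prefix `s35fh_`.
-/
import Mathlib
import Fermat.Agent.SS.Model.FinalHesNF
import Fermat.Agent.SS.Model.NodeHesFinal

set_option autoImplicit false
set_option linter.style.haveILetI false
set_option linter.unusedSectionVars false
set_option linter.unusedVariables false

noncomputable section

namespace Fermat.Agent.S35

open Fermat.Agent.SS Fermat.Agent.JT3 IntermediateField ModularCurve IsLocalRing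

/-- the identity is inert at every valuation ring. -/
theorem s35fh_inert_refl {L : Type*} [Field L] (O : ValuationSubring L) :
    ss_Inert O (RingEquiv.refl L) := by
  intro x _
  have h0 : (0 : L) ∈ O.nonunits := by
    rw [ValuationSubring.mem_nonunits_iff]
    simp
  constructor
  · rw [RingEquiv.refl_apply, sub_self]
    exact h0
  · show x - x ∈ O.nonunits
    rw [sub_self]
    exact h0

section NF

variable (L : Type) [Field L] [NumberField L] [Algebra L (AlgebraicClosure ℚ)]
  (h3 : (3 : L) ≠ 0) (O : ValuationSubring L) [IsDiscreteValuationRing O]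
  (h3O : IsUnit (3 : O)) {π : O} (hπ : Irreducible π)
variable (N' q : ℕ) [NeZero N'] [NeZero q] [hq : Fact q.Prime] [CharP (ResidueField O) q]
  (hq3 : ¬ 3 ∣ q) (hqN' : ¬ q ∣ N') (ζ : L) (hζ : IsPrimitiveRoot ζ (3 * N'))

include hζ in
set_option synthInstance.maxHeartbeats 200000 in
set_option maxHeartbeats 1600000 in
/-- **the two-component model of the Hesse tower with `σ = id`** over any number-field base
`(L, O, π)`, `ζ_{3N'} ∈ L`, residue characteristic `q ≠ 3`, `q ∤ N'`. -/
theorem s35fh_model :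
    ss_Model π (hs_muE h3 (N' * q) - 1) (RingEquiv.refl ↥(hs_E L h3 (N' * q)))
      (RingEquiv.refl ↥O)
      (ssm_tp_P (fc_chart ↥O ({hs_muE h3 (N' * q) - 1, (hs_muE h3 (N' * q) - 1)⁻¹} :
        Set ↥(hs_E L h3 (N' * q)))) (ssm_fh_V1 h3 O h3O hπ N' q))
      (ssm_tp_P (fc_chart ↥O ({hs_muE h3 (N' * q) - 1, (hs_muE h3 (N' * q) - 1)⁻¹} :
        Set ↥(hs_E L h3 (N' * q)))) (ssm_fh_V2 h3 O h3O hπ N' q hq3 hqN')) := by
  have hE : ∀ z ∈ hs_E L h3 (N' * q),
      coeffMap ((RingEquiv.refl L : L ≃+* L) : L →+* L) z ∈ hs_E L h3 (N' * q) := by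
    intro z hz
    have : ((RingEquiv.refl L : L ≃+* L) : L →+* L) = RingHom.id L := rfl
    rw [this, coeffMap_id]
    exact hz
  have hE' : ∀ z ∈ hs_E L h3 (N' * q),
      coeffMap (((RingEquiv.refl L : L ≃+* L).symm : L ≃+* L) : L →+* L) z ∈
        hs_E L h3 (N' * q) := by
    intro z hz
    have : (((RingEquiv.refl L : L ≃+* L).symm : L ≃+* L) : L →+* L) = RingHom.id L := rfl
    rw [this, coeffMap_id]
    exact hz
  have h : ∀ z ∈ O, (RingEquiv.refl L : L ≃+* L) z ∈ O := fun z hz => hz
  have h' : ∀ z ∈ O, (RingEquiv.refl L : L ≃+* L).symm z ∈ O := fun z hz => hz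
  have M := ssm_fhn_model_of_node L h3 O hπ N' q hq3 hqN' ζ hζ (RingEquiv.refl L)
    (s35fh_inert_refl O) h3O hE hE' h h'
    (ssm_nht_nodeHyp L h3 O h3O hπ N' q hq3 hqN' ζ hζ (RingEquiv.refl L) (s35fh_inert_refl O))
  have e1 : ss_sigmaE (RingEquiv.refl L) (hs_E L h3 (N' * q)) hE hE' =
      RingEquiv.refl ↥(hs_E L h3 (N' * q)) := by
    apply RingEquiv.ext
    intro z
    apply Subtype.ext
    show coeffMap (RingHom.id L) (z : LaurentSeries L) = z
    exact coeffMap_id _
  have e2 : ss_sigmaO O (RingEquiv.refl L) h h' = RingEquiv.refl ↥O :=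
    RingEquiv.ext fun z => Subtype.ext rfl
  rw [e1, e2] at M
  exact M

end NF

end Fermat.Agent.S35
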