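/-
Project S35, HESSE twin (coordinate `x = μ - 1`), instance layer: THE `τ`-CLAUSES OF `tori_core`
FOR `τ = σ_E²`, `σ` A FROBENIUS LIFT.

`(L, O, π)` any base of residue characteristic `q ≠ 3`, `q ∤ N'`; `σ` a Frobenius lift at `O`
(`s35nf_FrobAt O σ q`, helper20), `σ_E = ssm_sgh_aut h3 (N' q) σ`, `E = hs_E L h3 (N' q)`:

* `s35fh_tau`, `s35fh_tau0`        : `τ = σ_E²` on `E`, `τ₀ = σ²` on `O`;
* `s35fh_tau_base`, `s35fh_tau0_dvd`, `s35fh_tau_x` : `hτbase`, `hτ0` (`π ∣ τ₀ a - a^(q²)`), `hτx`;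
* `s35fh_sigma_V1_iff`, `s35fh_sigma_V2_iff` : `σ_E` preserves `𝔪(V₁)`, `𝔪(V₂)` (both directions);
* `s35fh_tau_P1`, `s35fh_tau_P2`  : `hτP1`, `hτP2` on the overlap chart `fc_chart O {x, x⁻¹}`.

Prefix `s35fh_`.
-/
import Mathlib
import Fermat.Agent.S35.NodeFrob.Gauss
import Fermat.Agent.SS.Model.FactsHesse
import Fermat.Agent.SS.Model.SigmaW

set_option autoImplicit false
set_option linter.style.haveILetI false
set_option linter.unusedSectionVars false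
set_option linter.unusedVariables false

noncomputable section

namespace Fermat.Agent.S35

open Fermat.Agent.SS Fermat.Agent.JT3 IntermediateField ModularCurve IsLocalRing

section Tau

variable {L : Type*} [Field L] [CharZero L] (h3 : (3 : L) ≠ 0) (N : ℕ) [NeZero N]
  (O : ValuationSubring L) (σ : L ≃+* L) {q : ℕ}

/-- `τ = σ_E²`. -/
def s35fh_tau : ↥(hs_E L h3 N) ≃+* ↥(hs_E L h3 N) :=
  (ssm_sgh_aut h3 N σ).trans (ssm_sgh_aut h3 N σ)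

theorem s35fh_tau_apply (z : ↥(hs_E L h3 N)) :
    s35fh_tau h3 N σ z = ssm_sgh_aut h3 N σ (ssm_sgh_aut h3 N σ z) := rfl

variable {O σ}

/-- `τ₀ = σ²` on `O`. -/
def s35fh_tau0 (hσ : s35nf_FrobAt O σ q) : ↥O → ↥O :=
  fun a => s35nf_base hσ (s35nf_base hσ a)

/-- `hτbase` of `tori_core`. -/
theorem s35fh_tau_base (hσ : s35nf_FrobAt O σ q) (a : ↥O) :
    s35fh_tau h3 N σ (algebraMap ↥O ↥(hs_E L h3 N) a) =
      algebraMap ↥O ↥(hs_E L h3 N) (s35fh_tau0 hσ a) := by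
  have h1 : ∀ b : ↥O, ssm_sgh_aut h3 N σ (algebraMap ↥O ↥(hs_E L h3 N) b) =
      algebraMap ↥O ↥(hs_E L h3 N) (s35nf_base hσ b) :=
    fun b => ssm_sgh_aut_algebraMap h3 N σ (b : L)
  rw [s35fh_tau_apply, h1, h1]
  rfl

/-- `hτ0` of `tori_core`: `π ∣ τ₀ a - a^(q²)`. -/
theorem s35fh_tau0_dvd (hσ : s35nf_FrobAt O σ q) {π : ↥O}
    (hπ : maximalIdeal ↥O = Ideal.span {π}) (a : ↥O) : π ∣ s35fh_tau0 hσ a - a ^ (q ^ 2) := by
  rw [← Ideal.mem_span_singleton, ← hπ, ← residue_eq_zero_iff, map_sub, map_pow, sub_eq_zero]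
  exact s35nf_residue_sq hσ a

/-- `hτx` of `tori_core`. -/
theorem s35fh_tau_x : s35fh_tau h3 N σ (hs_muE h3 N - 1) = hs_muE h3 N - 1 := by
  rw [s35fh_tau_apply, ssm_sgm_aut_x, ssm_sgm_aut_x]

end Tau

section Gauss

variable {L : Type*} [Field L] {O : ValuationSubring L} [WfDvdMonoid O] {σ : L ≃+* L} {q : ℕ}
  [NeZero q] [hq : Fact q.Prime] [CharP (ResidueField O) q]
variable (π : O) (hπ0 : π ≠ 0) (hπ : maximalIdeal O = Ideal.span {π})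
  (E : IntermediateField L (LaurentSeries L)) (hE : E ≤ gq_quotField O L)

/-- a ring automorphism `σE` of `E` inducing `σ` on the coefficients preserves the maximal ideal of
the Gauss ring, in both directions. -/
theorem s35fh_gauss_iff (h : s35nf_FrobAt O σ q) (σE : ↥E ≃+* ↥E)
    (hσE : ∀ z : ↥E, ((σE z : ↥E) : LaurentSeries L) =
      coeffMap (σ : L →+* L) (z : LaurentSeries L)) (t : ↥E) :
    σE t ∈ (gq_valSubOf π hπ0 hπ E hE).nonunits ↔ t ∈ (gq_valSubOf π hπ0 hπ E hE).nonunits := by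
  set V := gq_valSubOf π hπ0 hπ E hE with hV
  have hmem : ∀ s : ↥E, s ∈ V → σE s ∈ V := fun s hs =>
    s35nf_mem_valSubOf π hπ0 hπ E hE h s (σE s) (hσE s) hs
  have hnu : ∀ s : ↥E, s ∈ V.nonunits → σE s ∈ V.nonunits := fun s hs =>
    s35nf_mem_nonunits π hπ0 hπ E hE h s (σE s) (hσE s) hs
  refine ⟨fun ht => ?_, hnu t⟩
  by_contra htn
  have ht0 : t ≠ 0 := ssm_tp_ne_zero V htn
  have h2 := ssm_tp_nonunits_mul V ht (hmem _ (ssm_tp_inv_mem V htn))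
  rw [← map_mul, mul_inv_cancel₀ ht0, map_one] at h2
  exact ssm_tp_one_not_mem_nonunits V h2

end Gauss

section Hesse

variable {L : Type*} [Field L] [CharZero L] [Algebra L (AlgebraicClosure ℚ)] (h3 : (3 : L) ≠ 0)
  (O : ValuationSubring L) [IsDiscreteValuationRing O] (h3O : IsUnit (3 : O)) {π : O}
  (hπ : Irreducible π)
variable (N' q : ℕ) [NeZero N'] [NeZero q] [hq : Fact q.Prime] [CharP (ResidueField O) q]
  (hq3 : ¬ 3 ∣ q) (hqN' : ¬ q ∣ N') (σ : L ≃+* L) (hσ : s35nf_FrobAt O σ q)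

include hσ in
/-- `σ_E` preserves `𝔪(V₁)` (both directions). -/
theorem s35fh_sigma_V1_iff (t : ↥(hs_E L h3 (N' * q))) :
    ssm_sgh_aut h3 (N' * q) σ t ∈ (ssm_fh_V1 h3 O h3O hπ N' q).nonunits ↔
      t ∈ (ssm_fh_V1 h3 O h3O hπ N' q).nonunits :=
  s35fh_gauss_iff π hπ.ne_zero hπ.maximalIdeal_eq (hs_E L h3 (N' * q))
    (hsa_E_le_quotField h3 O (N' * q) h3O) hσ (ssm_sgh_aut h3 (N' * q) σ) (fun _ => rfl) t

include hσ in
/-- `σ_E` preserves `𝔪(V₂)` (both directions): `W σ_E = σ_E W`. -/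
theorem s35fh_sigma_V2_iff (t : ↥(hs_E L h3 (N' * q))) :
    ssm_sgh_aut h3 (N' * q) σ t ∈ (ssm_fh_V2 h3 O h3O hπ N' q hq3 hqN').nonunits ↔
      t ∈ (ssm_fh_V2 h3 O h3O hπ N' q hq3 hqN').nonunits := by
  have hW : ∀ z, ssm_fh_W h3 N' q hq3 hqN' (ssm_sgh_aut h3 (N' * q) σ z) =
      ssm_sgh_aut h3 (N' * q) σ (ssm_fh_W h3 N' q hq3 hqN' z) :=
    ssm_sgw_comm_hes' L h3 (ssm_fh_hF9 h3) N' q hq.out hq3 hqN' σ
  have hnu : ∀ z : ↥(hs_E L h3 (N' * q)),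
      z ∈ (ssm_fh_V2 h3 O h3O hπ N' q hq3 hqN').nonunits ↔
        ssm_fh_W h3 N' q hq3 hqN' z ∈ (ssm_fh_V1 h3 O h3O hπ N' q).nonunits := by
    intro z
    exact ssm_tw_nonunits_comap _ _ z
  rw [hnu, hnu, hW]
  exact s35fh_sigma_V1_iff h3 O h3O hπ N' q σ hσ _

include hσ in
set_option synthInstance.maxHeartbeats 200000 in
/-- `hτP1`, `hτP2` of `tori_core` for `τ = σ_E²` on the overlap chart. -/
theorem s35fh_tau_P
    (hprime : Prime (algebraMap ↥O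
      (fc_chart ↥O ({hs_muE h3 N' - 1} : Set ↥(hs_E L h3 N'))) π)) :
    (∀ b b' : fc_chart ↥O ({hs_muE h3 (N' * q) - 1, (hs_muE h3 (N' * q) - 1)⁻¹} :
        Set ↥(hs_E L h3 (N' * q))),
      (b' : ↥(hs_E L h3 (N' * q))) = s35fh_tau h3 (N' * q) σ (b : ↥(hs_E L h3 (N' * q))) →
      (b' ∈ ssm_tp_P (fc_chart ↥O ({hs_muE h3 (N' * q) - 1, (hs_muE h3 (N' * q) - 1)⁻¹} :
          Set ↥(hs_E L h3 (N' * q)))) (ssm_fh_V1 h3 O h3O hπ N' q) ↔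
        b ∈ ssm_tp_P (fc_chart ↥O ({hs_muE h3 (N' * q) - 1, (hs_muE h3 (N' * q) - 1)⁻¹} :
          Set ↥(hs_E L h3 (N' * q)))) (ssm_fh_V1 h3 O h3O hπ N' q))) ∧
    (∀ b b' : fc_chart ↥O ({hs_muE h3 (N' * q) - 1, (hs_muE h3 (N' * q) - 1)⁻¹} :
        Set ↥(hs_E L h3 (N' * q))),
      (b' : ↥(hs_E L h3 (N' * q))) = s35fh_tau h3 (N' * q) σ (b : ↥(hs_E L h3 (N' * q))) →
      (b' ∈ ssm_tp_P (fc_chart ↥O ({hs_muE h3 (N' * q) - 1, (hs_muE h3 (N' * q) - 1)⁻¹} :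
          Set ↥(hs_E L h3 (N' * q)))) (ssm_fh_V2 h3 O h3O hπ N' q hq3 hqN') ↔
        b ∈ ssm_tp_P (fc_chart ↥O ({hs_muE h3 (N' * q) - 1, (hs_muE h3 (N' * q) - 1)⁻¹} :
          Set ↥(hs_E L h3 (N' * q)))) (ssm_fh_V2 h3 O h3O hπ N' q hq3 hqN'))) := by
  haveI := ssm_go_isScalarTower O (hs_E L h3 (N' * q))
  haveI := ssm_glh_finite h3 (N' * q)
  have hx := ssm_sgm_transcendental h3 (N' * q)
  have H := ssm_fh_hyp h3 O h3O hπ N' q hq3 hqN' hprime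
  obtain ⟨-, -, -, -, -, hmem, -, -⟩ := ssm_tp_ff_model (L := L) hπ hx H
  constructor
  · intro b b' hb
    rw [(hmem b').1, (hmem b).1, hb, s35fh_tau_apply,
      s35fh_sigma_V1_iff h3 O h3O hπ N' q σ hσ, s35fh_sigma_V1_iff h3 O h3O hπ N' q σ hσ]
  · intro b b' hb
    rw [(hmem b').2, (hmem b).2, hb, s35fh_tau_apply,
      s35fh_sigma_V2_iff h3 O h3O hπ N' q hq3 hqN' σ hσ,
      s35fh_sigma_V2_iff h3 O h3O hπ N' q hq3 hqN' σ hσ]

end Hesse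

end Fermat.Agent.S35
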