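/-
Project S35, HESSE twin (coordinate `x = μ - 1`), instance layer [TORIC-INST]-Hes (helper12):
**[L]-φ FOR THE HESSE TOWER OVER AN UNRAMIFIED NUMBER-FIELD BASE.**  Prefix `s35fh_`.

`L ⊆ Q̄` a number field containing a primitive `3N'`-th root of unity, `O` a discrete valuation ring
of `L` with uniformiser `q ≠ 3`, `q ∤ N'`, `φ` a Frobenius lift at `O`, `τ = φ_E²`, `Q = q²`:

* `s35fh_frobAt`   : helper10's `s35l_FrobAt τ (q²) 𝔫` at the crossing points of the `x`-chart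
  (helper20's [FROB-N] `s35nf_hes`);
* `s35fh_nodeAt`   : `s35l_NodeAt` (REGULAR Frobenius-fixed node) at the crossing points: helper29's
  thickness one `ssm_nht_thick_nf` (`u v = q`) + the crossing package `ssm_nh_cross`;
* `s35fh_pts`      : every closed point of the special fibre of the `x`-chart is smooth or a regular
  Frobenius-fixed node;
* `s35fh_inf`      : the points at infinity of the `x⁻¹`-chart are smooth;
* `s35fh_loc`      : **`tori_LocProvider L q (μ - 1) τ (q²) P1 P2 m`** (`s35fh_locProvider_abs`).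
-/
import Mathlib
import Fermat.Agent.S35.FinalHes.LocAbs
import Fermat.Agent.S35.FinalHes.Model
import Fermat.Agent.S35.FinalHes.Tau
import Fermat.Agent.S35.TauInst.Hes
import Fermat.Agent.S35.NodeFrob.Hes
import Fermat.Agent.SS.Model.NodeHesThick

set_option autoImplicit false
set_option linter.style.haveILetI false
set_option linter.unusedSectionVars false
set_option linter.unusedVariables false

noncomputable section

namespace Fermat.Agent.S35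

open Fermat.Agent.SS Fermat.Agent.JT3 IntermediateField ModularCurve IsLocalRing AlgebraicCurve
  Polynomial

section NF

variable (L : Type) [Field L] [NumberField L] [Algebra L (AlgebraicClosure ℚ)]
  (h3 : (3 : L) ≠ 0) (O : ValuationSubring L) [IsDiscreteValuationRing O]
  (h3O : IsUnit (3 : O))
variable (N' q : ℕ) [NeZero N'] [NeZero q] [hq : Fact q.Prime] [CharP (ResidueField O) q]
  (hq3 : ¬ 3 ∣ q) (hqN' : ¬ q ∣ N') (hπ : Irreducible ((q : ℕ) : ↥O))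
  (ζ : L) (hζ : IsPrimitiveRoot ζ (3 * N'))
  (φ : L ≃+* L) (hφ : s35nf_FrobAt O φ q)

include hζ hφ in
set_option synthInstance.maxHeartbeats 200000 in
set_option maxHeartbeats 1600000 in
/-- **the Frobenius at the crossing points of the `x`-chart.** -/
theorem s35fh_frobAt
    (𝔫 : Ideal (fc_chart ↥O ({hs_muE h3 (N' * q) - 1} : Set ↥(hs_E L h3 (N' * q)))))
    (h𝔫 : 𝔫.IsMaximal)
    (hP1 : ssm_tp_P (fc_chart ↥O ({hs_muE h3 (N' * q) - 1} : Set ↥(hs_E L h3 (N' * q))))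
      (ssm_fh_V1 h3 O h3O hπ N' q) ≤ 𝔫)
    (hP2 : ssm_tp_P (fc_chart ↥O ({hs_muE h3 (N' * q) - 1} : Set ↥(hs_E L h3 (N' * q))))
      (ssm_fh_V2 h3 O h3O hπ N' q hq3 hqN') ≤ 𝔫) :
    s35l_FrobAt (s35fh_tau h3 (N' * q) φ) (q ^ 2) 𝔫 := by
  have hqO : ((q : ℕ) : O) ∈ maximalIdeal O := by
    rw [← residue_eq_zero_iff, map_natCast]
    exact CharP.cast_eq_zero _ q
  have hq3' : q ≠ 3 := by
    rintro rfl
    exact hq3 dvd_rfl
  obtain ⟨-, -, hprime1, -, -, hded1, -⟩ := ssm_hlr_main h3 O N' hπ q hqO hq3' hqN' ζ hζ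
  have hic1 : IsIntegrallyClosed (fc_chart ↥O ({hs_muE h3 N' - 1} : Set ↥(hs_E L h3 N')) ⧸
      (Ideal.span {algebraMap ↥O (fc_chart ↥O ({hs_muE h3 N' - 1} : Set ↥(hs_E L h3 N')))
          ((q : ℕ) : ↥O)} :
        Ideal (fc_chart ↥O ({hs_muE h3 N' - 1} : Set ↥(hs_E L h3 N'))))) := by
    haveI := hded1
    infer_instance
  have F := ssm_fh_facts h3 O h3O hπ N' q hq3 hqN' hprime1
  obtain ⟨hA, hI⟩ := s35nf_hes h3 O h3O hπ N' q hq3 hqN' hprime1 hic1 F φ hφ 𝔫 h𝔫 hP1 hP2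
  have hch : ∀ z : ↥(hs_E L h3 (N' * q)),
      s35fh_tau h3 (N' * q) φ z ∈
          fc_chart ↥O ({hs_muE h3 (N' * q) - 1} : Set ↥(hs_E L h3 (N' * q))) ↔
        z ∈ fc_chart ↥O ({hs_muE h3 (N' * q) - 1} : Set ↥(hs_E L h3 (N' * q))) :=
    fun z => s35ti_hes_chart1 h3 O (N' * q) φ hφ z
  refine ⟨fun b hb => (hch b).2 hb, fun b hb => (hch _).1 ?_, fun b b' hbb' => ?_,
    pow_ne_zero 2 (NeZero.ne q)⟩
  · rw [RingEquiv.apply_symm_apply]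
    exact hb
  · obtain ⟨m, hm, hmb⟩ := hA b
    have : b' - b ^ (q ^ 2) = m := by
      apply Subtype.ext
      rw [hmb]
      push_cast
      rw [hbb', s35fh_tau_apply]
    rw [this]
    exact hm

include hζ hφ in
set_option synthInstance.maxHeartbeats 400000 in
set_option maxHeartbeats 3200000 in
/-- **the crossing points of the `x`-chart are regular Frobenius-fixed nodes.** -/
theorem s35fh_nodeAt
    (𝔫 : Ideal (fc_chart ↥O ({hs_muE h3 (N' * q) - 1} : Set ↥(hs_E L h3 (N' * q)))))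
    (h𝔫 : 𝔫.IsMaximal)
    (hP1 : ssm_tp_P (fc_chart ↥O ({hs_muE h3 (N' * q) - 1} : Set ↥(hs_E L h3 (N' * q))))
      (ssm_fh_V1 h3 O h3O hπ N' q) ≤ 𝔫)
    (hP2 : ssm_tp_P (fc_chart ↥O ({hs_muE h3 (N' * q) - 1} : Set ↥(hs_E L h3 (N' * q))))
      (ssm_fh_V2 h3 O h3O hπ N' q hq3 hqN') ≤ 𝔫) :
    s35l_NodeAt ((q : ℕ) : ↥O) (s35fh_tau h3 (N' * q) φ) (q ^ 2)
      (ssm_tp_P (fc_chart ↥O ({hs_muE h3 (N' * q) - 1} : Set ↥(hs_E L h3 (N' * q))))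
        (ssm_fh_V1 h3 O h3O hπ N' q))
      (ssm_tp_P (fc_chart ↥O ({hs_muE h3 (N' * q) - 1} : Set ↥(hs_E L h3 (N' * q))))
        (ssm_fh_V2 h3 O h3O hπ N' q hq3 hqN')) 𝔫 := by
  have hqO : ((q : ℕ) : O) ∈ maximalIdeal O := by
    rw [← residue_eq_zero_iff, map_natCast]
    exact CharP.cast_eq_zero _ q
  have hq3' : q ≠ 3 := by
    rintro rfl
    exact hq3 dvd_rfl
  obtain ⟨ω, hω, hram', hram⟩ := ssm_nht_ram h3 O N' (N' * q) hζ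
  obtain ⟨-, -, hprime1, -, -, hded1, -⟩ := ssm_hlr_main h3 O N' hπ q hqO hq3' hqN' ζ hζ
  have hic1 : IsIntegrallyClosed (fc_chart ↥O ({hs_muE h3 N' - 1} : Set ↥(hs_E L h3 N')) ⧸
      (Ideal.span {algebraMap ↥O (fc_chart ↥O ({hs_muE h3 N' - 1} : Set ↥(hs_E L h3 N')))
          ((q : ℕ) : ↥O)} :
        Ideal (fc_chart ↥O ({hs_muE h3 N' - 1} : Set ↥(hs_E L h3 N'))))) := by
    haveI := hded1
    infer_instance
  have hEC := ssm_hl_EC_aeval h3 O N' hπ q hqO hq3' hqN' ω hω hram'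
  have hF := s35fh_frobAt L h3 O h3O N' q hq3 hqN' hπ ζ hζ φ hφ 𝔫 h𝔫 hP1 hP2
  have hthick := ssm_nht_thick_nf L h3 O h3O N' q hq3 hqN' hπ ζ hζ 𝔫 h𝔫 hP1 hP2
  letI := ssm_gi_algebra (ssm_alh_E_le L h3 (ssm_fh_hF9 h3) N' q)
  haveI := ssm_gt_isScalarTower O (ssm_alh_E_le L h3 (ssm_fh_hF9 h3) N' q)
  have C1 := ssm_nh_cross h3 O h3O hπ N' q hq3 hqN' hprime1 hic1 hEC
  refine s35fh_nodeAt_of_cross C1 ((q : ℕ) : ↥O) (ssm_cpi_phi_algebraMap _ _)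
    (s35fh_tau h3 (N' * q) φ) (q ^ 2) 𝔫 h𝔫 hP1 hP2 hF ?_
  obtain ⟨u, v, huv, h2, h3', h4, h5, h6, h7⟩ := hthick
  refine ⟨u, v, ?_, h2, h3', h4, h5, h6, h7⟩
  rw [huv]
  exact (map_natCast (algebraMap ↥O ↥(hs_E L h3 (N' * q))) q).symm

include hζ hφ in
set_option synthInstance.maxHeartbeats 200000 in
set_option maxHeartbeats 1600000 in
/-- **the closed points of the special fibre of the `x`-chart**: smooth, or regular Frobenius-fixed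
nodes. -/
theorem s35fh_pts
    (𝔫 : Ideal (fc_chart ↥O ({hs_muE h3 (N' * q) - 1} : Set ↥(hs_E L h3 (N' * q)))))
    (h𝔫 : 𝔫.IsMaximal)
    (hπ𝔫 : algebraMap ↥O (fc_chart ↥O ({hs_muE h3 (N' * q) - 1} : Set ↥(hs_E L h3 (N' * q))))
      ((q : ℕ) : ↥O) ∈ 𝔫) :
    ss_SmoothAt ((q : ℕ) : ↥O)
        (fc_chart ↥O ({hs_muE h3 (N' * q) - 1} : Set ↥(hs_E L h3 (N' * q)))) 𝔫 ∨
      s35l_NodeAt ((q : ℕ) : ↥O) (s35fh_tau h3 (N' * q) φ) (q ^ 2)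
        (ssm_tp_P (fc_chart ↥O ({hs_muE h3 (N' * q) - 1} : Set ↥(hs_E L h3 (N' * q))))
          (ssm_fh_V1 h3 O h3O hπ N' q))
        (ssm_tp_P (fc_chart ↥O ({hs_muE h3 (N' * q) - 1} : Set ↥(hs_E L h3 (N' * q))))
          (ssm_fh_V2 h3 O h3O hπ N' q hq3 hqN')) 𝔫 := by
  have hqO : ((q : ℕ) : O) ∈ maximalIdeal O := by
    rw [← residue_eq_zero_iff, map_natCast]
    exact CharP.cast_eq_zero _ q
  have hq3' : q ≠ 3 := by
    rintro rfl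
    exact hq3 dvd_rfl
  obtain ⟨hreg1, hreg2, hprime1, hprime2, -, hded1, hded2⟩ :=
    ssm_hlr_main h3 O N' hπ q hqO hq3' hqN' ζ hζ
  have hic1 : IsIntegrallyClosed (fc_chart ↥O ({hs_muE h3 N' - 1} : Set ↥(hs_E L h3 N')) ⧸
      (Ideal.span {algebraMap ↥O (fc_chart ↥O ({hs_muE h3 N' - 1} : Set ↥(hs_E L h3 N')))
          ((q : ℕ) : ↥O)} :
        Ideal (fc_chart ↥O ({hs_muE h3 N' - 1} : Set ↥(hs_E L h3 N'))))) := by
    haveI := hded1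
    infer_instance
  have hic2 : IsIntegrallyClosed (fc_chart ↥O ({(hs_muE h3 N' - 1)⁻¹} : Set ↥(hs_E L h3 N')) ⧸
      (Ideal.span {algebraMap ↥O
          (fc_chart ↥O ({(hs_muE h3 N' - 1)⁻¹} : Set ↥(hs_E L h3 N'))) ((q : ℕ) : ↥O)} :
        Ideal (fc_chart ↥O ({(hs_muE h3 N' - 1)⁻¹} : Set ↥(hs_E L h3 N'))))) := by
    haveI := hded2
    infer_instance
  obtain ⟨hsm11, hsm12, -, -⟩ :=
    ssm_sih_smooth h3 O h3O hπ N' q hq3 hqN' hprime1 hprime2 hic1 hic2 hreg1 hreg2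
  by_cases h2 : ssm_tp_P (fc_chart ↥O ({hs_muE h3 (N' * q) - 1} : Set ↥(hs_E L h3 (N' * q))))
      (ssm_fh_V2 h3 O h3O hπ N' q hq3 hqN') ≤ 𝔫
  · by_cases h1 : ssm_tp_P (fc_chart ↥O ({hs_muE h3 (N' * q) - 1} : Set ↥(hs_E L h3 (N' * q))))
        (ssm_fh_V1 h3 O h3O hπ N' q) ≤ 𝔫
    · exact Or.inr (s35fh_nodeAt L h3 O h3O N' q hq3 hqN' hπ ζ hζ φ hφ 𝔫 h𝔫 h1 h2)
    · exact Or.inl (hsm12 𝔫 h𝔫 hπ𝔫 h1)
  · exact Or.inl (hsm11 𝔫 h𝔫 hπ𝔫 h2)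

include h3O hπ hq3 hqN' hζ in
set_option synthInstance.maxHeartbeats 200000 in
set_option maxHeartbeats 1600000 in
/-- **the points at infinity of the `x⁻¹`-chart are smooth.** -/
theorem s35fh_inf
    (𝔫 : Ideal (fc_chart ↥O ({(hs_muE h3 (N' * q) - 1)⁻¹} : Set ↥(hs_E L h3 (N' * q)))))
    (h𝔫 : 𝔫.IsMaximal)
    (hπ𝔫 : algebraMap ↥O
      (fc_chart ↥O ({(hs_muE h3 (N' * q) - 1)⁻¹} : Set ↥(hs_E L h3 (N' * q))))
      ((q : ℕ) : ↥O) ∈ 𝔫)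
    (hμ : (⟨(hs_muE h3 (N' * q) - 1)⁻¹, fc_x_mem_chart (hs_muE h3 (N' * q) - 1)⁻¹⟩ :
      fc_chart ↥O ({(hs_muE h3 (N' * q) - 1)⁻¹} : Set ↥(hs_E L h3 (N' * q)))) ∈ 𝔫) :
    ss_SmoothAt ((q : ℕ) : ↥O)
      (fc_chart ↥O ({(hs_muE h3 (N' * q) - 1)⁻¹} : Set ↥(hs_E L h3 (N' * q)))) 𝔫 := by
  have hqO : ((q : ℕ) : O) ∈ maximalIdeal O := by
    rw [← residue_eq_zero_iff, map_natCast]
    exact CharP.cast_eq_zero _ q
  have hq3' : q ≠ 3 := by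
    rintro rfl
    exact hq3 dvd_rfl
  obtain ⟨hreg1, hreg2, hprime1, hprime2, -, hded1, hded2⟩ :=
    ssm_hlr_main h3 O N' hπ q hqO hq3' hqN' ζ hζ
  have hic1 : IsIntegrallyClosed (fc_chart ↥O ({hs_muE h3 N' - 1} : Set ↥(hs_E L h3 N')) ⧸
      (Ideal.span {algebraMap ↥O (fc_chart ↥O ({hs_muE h3 N' - 1} : Set ↥(hs_E L h3 N')))
          ((q : ℕ) : ↥O)} :
        Ideal (fc_chart ↥O ({hs_muE h3 N' - 1} : Set ↥(hs_E L h3 N'))))) := by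
    haveI := hded1
    infer_instance
  have hic2 : IsIntegrallyClosed (fc_chart ↥O ({(hs_muE h3 N' - 1)⁻¹} : Set ↥(hs_E L h3 N')) ⧸
      (Ideal.span {algebraMap ↥O
          (fc_chart ↥O ({(hs_muE h3 N' - 1)⁻¹} : Set ↥(hs_E L h3 N'))) ((q : ℕ) : ↥O)} :
        Ideal (fc_chart ↥O ({(hs_muE h3 N' - 1)⁻¹} : Set ↥(hs_E L h3 N'))))) := by
    haveI := hded2
    infer_instance
  obtain ⟨-, -, hsm21, hsm22⟩ :=
    ssm_sih_smooth h3 O h3O hπ N' q hq3 hqN' hprime1 hprime2 hic1 hic2 hreg1 hreg2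
  obtain ⟨hWB, hw, hw', hsub⟩ := ssm_sfh_inf h3 O h3O hπ N' q hq3 hqN' hprime1
  haveI := ssm_go_isScalarTower O (hs_E L h3 (N' * q))
  haveI := ssm_glh_finite h3 (N' * q)
  exact ssm_inf_ff_smooth (L := L) hπ (ssm_sgm_transcendental h3 (N' * q))
    (ssm_fh_hyp h3 O h3O hπ N' q hq3 hqN' hprime1) (ssm_fh_W h3 N' q hq3 hqN')
    (ssm_fh_W_W h3 N' q hq3 hqN') (fun _ => Iff.rfl) hWB hq.out.two_le hw hw' hsub hsm21 hsm22
    𝔫 h𝔫 hπ𝔫 hμ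

include hζ hφ in
set_option synthInstance.maxHeartbeats 200000 in
set_option maxHeartbeats 1600000 in
/-- **[L]-φ for the Hesse tower over `(L, O, q)`.** -/
theorem s35fh_loc (m : ℕ) (hm : m ≠ 0) :
    tori_LocProvider L ((q : ℕ) : ↥O) (hs_muE h3 (N' * q) - 1) (s35fh_tau h3 (N' * q) φ) (q ^ 2)
      (ssm_tp_P (fc_chart ↥O ({hs_muE h3 (N' * q) - 1, (hs_muE h3 (N' * q) - 1)⁻¹} :
        Set ↥(hs_E L h3 (N' * q)))) (ssm_fh_V1 h3 O h3O hπ N' q))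
      (ssm_tp_P (fc_chart ↥O ({hs_muE h3 (N' * q) - 1, (hs_muE h3 (N' * q) - 1)⁻¹} :
        Set ↥(hs_E L h3 (N' * q)))) (ssm_fh_V2 h3 O h3O hπ N' q hq3 hqN')) m := by
  have hqO : ((q : ℕ) : O) ∈ maximalIdeal O := by
    rw [← residue_eq_zero_iff, map_natCast]
    exact CharP.cast_eq_zero _ q
  have hq3' : q ≠ 3 := by
    rintro rfl
    exact hq3 dvd_rfl
  obtain ⟨-, -, hprime1, -, -, -, -⟩ := ssm_hlr_main h3 O N' hπ q hqO hq3' hqN' ζ hζ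
  haveI := ssm_go_isScalarTower O (hs_E L h3 (N' * q))
  haveI := ssm_glh_finite h3 (N' * q)
  have hx := ssm_sgm_transcendental h3 (N' * q)
  have H := ssm_fh_hyp h3 O h3O hπ N' q hq3 hqN' hprime1
  have M := s35fh_model L h3 O h3O hπ N' q hq3 hqN' ζ hζ
  have hτV1 : ∀ z : ↥(hs_E L h3 (N' * q)),
      s35fh_tau h3 (N' * q) φ z ∈ (ssm_fh_V1 h3 O h3O hπ N' q).nonunits ↔
        z ∈ (ssm_fh_V1 h3 O h3O hπ N' q).nonunits := by
    intro z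
    rw [s35fh_tau_apply, s35fh_sigma_V1_iff h3 O h3O hπ N' q φ hφ,
      s35fh_sigma_V1_iff h3 O h3O hπ N' q φ hφ]
  have hτV2 : ∀ z : ↥(hs_E L h3 (N' * q)),
      s35fh_tau h3 (N' * q) φ z ∈ (ssm_fh_V2 h3 O h3O hπ N' q hq3 hqN').nonunits ↔
        z ∈ (ssm_fh_V2 h3 O h3O hπ N' q hq3 hqN').nonunits := by
    intro z
    rw [s35fh_tau_apply, s35fh_sigma_V2_iff h3 O h3O hπ N' q hq3 hqN' φ hφ,
      s35fh_sigma_V2_iff h3 O h3O hπ N' q hq3 hqN' φ hφ]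
  have hτL : ∀ a : L, s35fh_tau h3 (N' * q) φ (algebraMap L ↥(hs_E L h3 (N' * q)) a) =
      algebraMap L ↥(hs_E L h3 (N' * q)) ((φ.trans φ) a) := by
    intro a
    rw [s35fh_tau_apply, ssm_sgh_aut_algebraMap, ssm_sgh_aut_algebraMap]
    rfl
  have hQ : 2 ≤ q ^ 2 := by
    have := hq.out.two_le
    nlinarith
  exact s35fh_locProvider_abs (L := L) hπ hx H M.hxS1 M.hxS2 (s35fh_tau h3 (N' * q) φ)
    (φ.trans φ) hτL hτV1 hτV2 hQ
    (fun 𝔫 h𝔫 hπ𝔫 => s35fh_pts L h3 O h3O N' q hq3 hqN' hπ ζ hζ φ hφ 𝔫 h𝔫 hπ𝔫)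
    (fun 𝔫 h𝔫 hπ𝔫 hμ => s35fh_inf L h3 O h3O N' q hq3 hqN' hπ ζ hζ 𝔫 h𝔫 hπ𝔫 hμ) hm

end NF

end Fermat.Agent.S35
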