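/-
Project S35, HESSE twin (coordinate `x = μ - 1`), instance layer: **[TORIC] FOR THE HESSE TOWER FROM
THE LOCAL FACTORISATIONS [L]-φ** (`tori_LocProvider`, helper10/helper19).

`L ⊆ Q̄` a number field containing a primitive `3N'`-th root of unity, `O` a discrete valuation ring
of `L` of residue characteristic `q ≠ 3`, `q ∤ N'`, `π` a uniformiser, `φ` a Frobenius lift at `O`
(`s35nf_FrobAt O φ q`), `τ = φ_E²`:

* `s35fh_toricAt_of_loc` : `tori_LocProvider L π (μ - 1) τ (q²) P1 P2 m → s35h_ToricAt … φ m`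
  (`tori_toric_ff` with `M := s35fh_model`, the `τ`-clauses of `Tau.lean`).

Prefix `s35fh_`.
-/
import Mathlib
import Fermat.Agent.S35.FinalHes.Model
import Fermat.Agent.S35.FinalHes.Tau
import Fermat.Agent.S35.Toric.FunField
import Fermat.Agent.S35.SeamsHes

set_option autoImplicit false
set_option linter.style.haveILetI false
set_option linter.unusedSectionVars false
set_option linter.unusedVariables false

noncomputable section

namespace Fermat.Agent.S35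

open Fermat.Agent.SS Fermat.Agent.JT3 IntermediateField ModularCurve IsLocalRing AlgebraicCurve

section NF

variable (L : Type) [Field L] [NumberField L] [Algebra L (AlgebraicClosure ℚ)]
  (h3 : (3 : L) ≠ 0) (O : ValuationSubring L) [IsDiscreteValuationRing O]
  (h3O : IsUnit (3 : O)) {π : O} (hπ : Irreducible π)
variable (N' q : ℕ) [NeZero N'] [NeZero q] [hq : Fact q.Prime] [CharP (ResidueField O) q]
  (hq3 : ¬ 3 ∣ q) (hqN' : ¬ q ∣ N') (ζ : L) (hζ : IsPrimitiveRoot ζ (3 * N'))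
  (φ : L ≃+* L) (hφ : s35nf_FrobAt O φ q)

include hζ hφ in
set_option synthInstance.maxHeartbeats 200000 in
set_option maxHeartbeats 1600000 in
/-- **[TORIC] for the Hesse tower from [L]-φ.** -/
theorem s35fh_toricAt_of_loc (m : ℕ) (hm : IsUnit (m : O))
    (hL : tori_LocProvider L π (hs_muE h3 (N' * q) - 1) (s35fh_tau h3 (N' * q) φ) (q ^ 2)
      (ssm_tp_P (fc_chart ↥O ({hs_muE h3 (N' * q) - 1, (hs_muE h3 (N' * q) - 1)⁻¹} :
        Set ↥(hs_E L h3 (N' * q)))) (ssm_fh_V1 h3 O h3O hπ N' q))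
      (ssm_tp_P (fc_chart ↥O ({hs_muE h3 (N' * q) - 1, (hs_muE h3 (N' * q) - 1)⁻¹} :
        Set ↥(hs_E L h3 (N' * q)))) (ssm_fh_V2 h3 O h3O hπ N' q hq3 hqN')) m) :
    s35h_ToricAt h3 O h3O hπ N' q hq3 hqN' φ m := by
  intro g' hg'0 hord hred
  obtain ⟨k1, k2, hk1, hk2, h1, h2⟩ := hred
  have hqO : ((q : ℕ) : O) ∈ maximalIdeal O := by
    rw [← residue_eq_zero_iff, map_natCast]
    exact CharP.cast_eq_zero _ q
  have hq3' : q ≠ 3 := by
    rintro rfl
    exact hq3 dvd_rfl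
  obtain ⟨-, -, hprime1, -, -, -, -⟩ := ssm_hlr_main h3 O N' hπ q hqO hq3' hqN' ζ hζ
  haveI := ssm_go_isScalarTower O (hs_E L h3 (N' * q))
  haveI := ssm_glh_finite h3 (N' * q)
  have hx := ssm_sgm_transcendental h3 (N' * q)
  have H := ssm_fh_hyp h3 O h3O hπ N' q hq3 hqN' hprime1
  have M := s35fh_model L h3 O h3O hπ N' q hq3 hqN' ζ hζ
  have hτV1 : ∀ z : ↥(hs_E L h3 (N' * q)),
      s35fh_tau h3 (N' * q) φ z ∈ (ssm_fh_V1 h3 O h3O hπ N' q).nonunits ↔
        z ∈ (ssm_fh_V1 h3 O h3O hπ N' q).nonunits := by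
    intro z
    rw [s35fh_tau_apply, s35fh_sigma_V1_iff h3 O h3O hπ N' q φ hφ,
      s35fh_sigma_V1_iff h3 O h3O hπ N' q φ hφ]
  have hτV2 : ∀ z : ↥(hs_E L h3 (N' * q)),
      s35fh_tau h3 (N' * q) φ z ∈ (ssm_fh_V2 h3 O h3O hπ N' q hq3 hqN').nonunits ↔
        z ∈ (ssm_fh_V2 h3 O h3O hπ N' q hq3 hqN').nonunits := by
    intro z
    rw [s35fh_tau_apply, s35fh_sigma_V2_iff h3 O h3O hπ N' q hq3 hqN' φ hφ,
      s35fh_sigma_V2_iff h3 O h3O hπ N' q hq3 hqN' φ hφ]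
  obtain ⟨c, r, hr0, hc⟩ := tori_toric_ff (L := L) (K := L) hπ hx H M
    (s35fh_tau h3 (N' * q) φ) (s35fh_tau0 hφ) (q ^ 2)
    (s35fh_tau_base h3 (N' * q) hφ) (s35fh_tau0_dvd hφ hπ.maximalIdeal_eq)
    (s35fh_tau_x h3 (N' * q)) hτV1 hτV2 m hm hL hg'0 hord hk1 hk2 h1 h2
  exact ⟨(c : L), r, hr0, hc⟩

end NF

end Fermat.Agent.S35
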