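/-
Project S35, HESSE twin, instance layer: **`s35h_ToricNF` FROM THE LOCAL FACTORISATIONS [L]-φ OVER
THE UNRAMIFIED NUMBER FIELDS.**

* `s35fh_frobAt_of_coe` : the restriction `φ1` to a subfield `L1 ⊆ Q̄` of a Frobenius element `φ` at
  `A` is a Frobenius lift at `A ∩ L1` (`s35nf_FrobAt`);
* `s35fh_LocNF`         : [L]-φ for the Hesse tower over the number fields `L1` (the
  `tori_LocProvider` of `(hs_E L1 _ (N' q), μ - 1, τ = φ1_E², Q = q²)`), as a `Prop`;
* `s35fh_toricNF_of_loc`: `s35fh_LocNF → s35h_ToricNF` (helper6's seam of `S35/SeamsHesNF.lean`).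

Prefix `s35fh_`.
-/
import Mathlib
import Fermat.Agent.S35.FinalHes.Toric
import Fermat.Agent.S35.SeamsHesNF
import Fermat.Agent.S35.DescU.InertiaField

set_option autoImplicit false
set_option linter.style.haveILetI false
set_option linter.unusedSectionVars false
set_option linter.unusedVariables false

noncomputable section

namespace Fermat.Agent.S35

open Fermat.Agent.SS Fermat.Agent.JT3 IntermediateField ModularCurve IsLocalRing AlgebraicCurve

local notation "GQ" => (AlgebraicClosure ℚ ≃ₐ[ℚ] AlgebraicClosure ℚ)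
local notation "Qb" => AlgebraicClosure ℚ

/-- the restriction to `L1 ⊆ Q̄` of a Frobenius element at `A` is a Frobenius lift at `A ∩ L1`. -/
theorem s35fh_frobAt_of_coe {A : ValuationSubring Qb} {q : ℕ} {φ : GQ}
    (hφ : A.IsFrobeniusAt φ q) (L1 : IntermediateField ℚ Qb) (φ1 : ↥L1 ≃+* ↥L1)
    (hφ1 : ∀ x : ↥L1, ((φ1 x : ↥L1) : Qb) = φ (x : Qb)) :
    s35nf_FrobAt (A.comap (algebraMap ↥L1 Qb)) φ1 q := by
  intro x hx
  have hxA : (x : Qb) ∈ A := hx
  refine ⟨?_, ?_, ?_⟩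
  · show ((φ1 x : ↥L1) : Qb) ∈ A
    rw [hφ1]
    exact s35d_frob_mem hφ hxA
  · show ((φ1.symm x : ↥L1) : Qb) ∈ A
    have h1 : φ ((φ1.symm x : ↥L1) : Qb) = (x : Qb) := by
      rw [← hφ1, φ1.apply_symm_apply]
    have h2 : ((φ1.symm x : ↥L1) : Qb) = φ⁻¹ (x : Qb) := by
      rw [← h1]
      exact (φ.symm_apply_apply _).symm
    rw [h2]
    exact s35d_decomp_mem (inv_mem hφ.mem_decompositionSubgroup) hxA
  · rw [dsc_mem_comap_nonunits_iff]
    have h1 : algebraMap ↥L1 Qb (φ1 x - x ^ q) = φ (x : Qb) - (x : Qb) ^ q := by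
      rw [map_sub, map_pow]
      show ((φ1 x : ↥L1) : Qb) - (x : Qb) ^ q = _
      rw [hφ1]
    rw [h1]
    exact s35d_frob_congr hφ hxA

section NFH

variable (N' q : ℕ) [NeZero N'] [NeZero q] [hq : Fact q.Prime] (hq3 : ¬ 3 ∣ q) (hqN' : ¬ q ∣ N')

/-- **[L]-φ for the Hesse tower over the unramified number fields**: the local factorisations
`tori_LocProvider` of `(E = hs_E L1 _ (N' q), x = μ - 1, τ = φ1_E², Q = q²)` over `(L1, A ∩ L1, q)`. -/
def s35fh_LocNF : Prop :=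
  ∀ A : ValuationSubring Qb, A.LiesOverPrime q → ∀ φ : GQ, A.IsFrobeniusAt φ q →
    ∃ T : Finset Qb,
      ∀ L1 : IntermediateField ℚ Qb, FiniteDimensional ℚ L1 → (↑T : Set Qb) ⊆ L1 →
        ∀ [IsDiscreteValuationRing ↥(A.comap (algebraMap ↥L1 Qb))]
          [CharP (ResidueField ↥(A.comap (algebraMap ↥L1 Qb))) q]
          (h3O : IsUnit (3 : ↥(A.comap (algebraMap ↥L1 Qb))))
          (hπ : Irreducible ((q : ℕ) : ↥(A.comap (algebraMap ↥L1 Qb)))),
          ∀ φ1 : ↥L1 ≃+* ↥L1, (∀ x : ↥L1, ((φ1 x : ↥L1) : Qb) = φ (x : Qb)) →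
            ∀ m : ℕ, ¬ q ∣ m → (∃ ζ : ↥L1, IsPrimitiveRoot ζ m) →
              tori_LocProvider ↥L1 ((q : ℕ) : ↥(A.comap (algebraMap ↥L1 Qb)))
                (hs_muE (three_ne_zero : (3 : ↥L1) ≠ 0) (N' * q) - 1)
                (s35fh_tau (three_ne_zero : (3 : ↥L1) ≠ 0) (N' * q) φ1) (q ^ 2)
                (ssm_tp_P (fc_chart ↥(A.comap (algebraMap ↥L1 Qb))
                  ({hs_muE (three_ne_zero : (3 : ↥L1) ≠ 0) (N' * q) - 1,
                    (hs_muE (three_ne_zero : (3 : ↥L1) ≠ 0) (N' * q) - 1)⁻¹} :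
                    Set ↥(hs_E ↥L1 (three_ne_zero : (3 : ↥L1) ≠ 0) (N' * q))))
                  (ssm_fh_V1 (three_ne_zero : (3 : ↥L1) ≠ 0) (A.comap (algebraMap ↥L1 Qb)) h3O hπ
                    N' q))
                (ssm_tp_P (fc_chart ↥(A.comap (algebraMap ↥L1 Qb))
                  ({hs_muE (three_ne_zero : (3 : ↥L1) ≠ 0) (N' * q) - 1,
                    (hs_muE (three_ne_zero : (3 : ↥L1) ≠ 0) (N' * q) - 1)⁻¹} :
                    Set ↥(hs_E ↥L1 (three_ne_zero : (3 : ↥L1) ≠ 0) (N' * q))))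
                  (ssm_fh_V2 (three_ne_zero : (3 : ↥L1) ≠ 0) (A.comap (algebraMap ↥L1 Qb)) h3O hπ
                    N' q hq3 hqN')) m

set_option synthInstance.maxHeartbeats 200000 in
set_option maxHeartbeats 1600000 in
/-- **`s35h_ToricNF` from [L]-φ.** -/
theorem s35fh_toricNF_of_loc (hLoc : s35fh_LocNF N' q hq3 hqN') :
    s35h_ToricNF N' q hq3 hqN' := by
  classical
  intro A hAq φ hφ
  obtain ⟨T, hT⟩ := hLoc A hAq φ hφ
  haveI : NeZero (3 * N') := ⟨Nat.mul_ne_zero (by norm_num) (NeZero.ne N')⟩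
  obtain ⟨ζ', hζ'⟩ := HasEnoughRootsOfUnity.exists_primitiveRoot Qb (3 * N')
  refine ⟨T ∪ {ζ'}, fun L1 hfd hsub => ?_⟩
  intro _ _ h3O hπ φ1 hφ1 m hqm hζm
  have hsubT : (↑T : Set Qb) ⊆ L1 := fun x hx => hsub (by
    rw [Finset.coe_union]; exact Or.inl hx)
  have hζmem : ζ' ∈ L1 := hsub (by
    rw [Finset.coe_union]; exact Or.inr (by simp))
  haveI : NumberField ↥L1 := { to_charZero := inferInstance, to_finiteDimensional := hfd }
  have hζ : IsPrimitiveRoot (⟨ζ', hζmem⟩ : ↥L1) (3 * N') :=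
    (IsPrimitiveRoot.map_iff_of_injective (f := algebraMap ↥L1 Qb)
      (FaithfulSMul.algebraMap_injective ↥L1 Qb)).1 hζ'
  have hFrob := s35fh_frobAt_of_coe hφ L1 φ1 hφ1
  -- `m` is a unit of `O1`
  have hmem := lg_natCast_mem_maximalIdeal A hAq ↥L1
  have hm : IsUnit ((m : ℕ) : ↥(A.comap (algebraMap ↥L1 Qb))) := by
    have hcop : Nat.Coprime m q := by
      rw [Nat.coprime_comm, Nat.Prime.coprime_iff_not_dvd hq.out]
      exact hqm
    exact lg_isUnit_natCast hmem hcop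
  exact s35fh_toricAt_of_loc ↥L1 three_ne_zero (A.comap (algebraMap ↥L1 Qb)) h3O hπ N' q hq3 hqN'
    ⟨ζ', hζmem⟩ hζ φ1 hFrob m hm (hT L1 hfd hsubT h3O hπ φ1 hφ1 m hqm hζm)

end NFH

end Fermat.Agent.S35
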