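/-
Project S35, HESSE twin, instance layer [TORIC-INST]-Hes (helper12): **`s35h_ToricNF` CLOSED.**

* `s35fh_locNF`   : `s35fh_LocNF N' q hq3 hqN'` — [L]-φ for the Hesse tower over every unramified
  number field `L1 ∋ ζ_{3N'}` (`s35fh_loc`: helper10's local factorisations + helper29's thickness one
  + helper20's [FROB-N] + the smooth clauses of S34);
* `s35fh_toricNF` : **`s35h_ToricNF N' q hq3 hqN'`** (helper6's seam of `S35/SeamsHesNF.lean`), with no
  hypothesis.

Prefix `s35fh_`.
-/
import Mathlib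
import Fermat.Agent.S35.FinalHes.Loc
import Fermat.Agent.S35.FinalHes.ToricNF

set_option autoImplicit false
set_option linter.style.haveILetI false
set_option linter.unusedSectionVars false
set_option linter.unusedVariables false

noncomputable section

namespace Fermat.Agent.S35

open Fermat.Agent.SS Fermat.Agent.JT3 IntermediateField ModularCurve IsLocalRing AlgebraicCurve

local notation "GQ" => (AlgebraicClosure ℚ ≃ₐ[ℚ] AlgebraicClosure ℚ)
local notation "Qb" => AlgebraicClosure ℚ

section NFH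

variable (N' q : ℕ) [NeZero N'] [NeZero q] [hq : Fact q.Prime] (hq3 : ¬ 3 ∣ q) (hqN' : ¬ q ∣ N')

set_option synthInstance.maxHeartbeats 200000 in
set_option maxHeartbeats 1600000 in
/-- **[L]-φ for the Hesse tower over the unramified number fields.** -/
theorem s35fh_locNF : s35fh_LocNF N' q hq3 hqN' := by
  classical
  intro A hAq φ hφ
  haveI : NeZero (3 * N') := ⟨Nat.mul_ne_zero (by norm_num) (NeZero.ne N')⟩
  obtain ⟨ζ', hζ'⟩ := HasEnoughRootsOfUnity.exists_primitiveRoot Qb (3 * N')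
  refine ⟨{ζ'}, fun L1 hfd hsub => ?_⟩
  intro _ _ h3O hπ φ1 hφ1 m hqm hζm
  have hζmem : ζ' ∈ L1 := hsub (by simp)
  haveI : NumberField ↥L1 := { to_charZero := inferInstance, to_finiteDimensional := hfd }
  have hζ : IsPrimitiveRoot (⟨ζ', hζmem⟩ : ↥L1) (3 * N') :=
    (IsPrimitiveRoot.map_iff_of_injective (f := algebraMap ↥L1 Qb)
      (FaithfulSMul.algebraMap_injective ↥L1 Qb)).1 hζ'
  have hFrob := s35fh_frobAt_of_coe hφ L1 φ1 hφ1
  have hm0 : m ≠ 0 := by
    rintro rfl
    exact hqm (dvd_zero q)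
  exact s35fh_loc ↥L1 three_ne_zero (A.comap (algebraMap ↥L1 Qb)) h3O N' q hq3 hqN' hπ
    ⟨ζ', hζmem⟩ hζ φ1 hFrob m hm0

/-- **`s35h_ToricNF` for the Hesse tower** (no hypothesis). -/
theorem s35fh_toricNF : s35h_ToricNF N' q hq3 hqN' :=
  s35fh_toricNF_of_loc N' q hq3 hqN' (s35fh_locNF N' q hq3 hqN')

end NFH

end Fermat.Agent.S35
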