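/-
Project S35, HESSE twin, instance layer [TORIC-INST]-Hes (helper12): **(T-H) `s35h_ToricNF1` CLOSED**
(helper6's official primed seam of `S35/Seams2.lean`: the finite set `T` is fixed by the inertia
group).

* `s35fh_toricNF1` : `s35h_ToricNF1 N' q hq3 hqN'` (no hypothesis): `T := {ζ_{3N'}}`, fixed by `I_A`
  since `q ∤ 3N'` (`s35d_root_fixed`); `s35fh_loc` + `s35fh_toricAt_of_loc`.

Prefix `s35fh_`.
-/
import Mathlib
import Fermat.Agent.S35.FinalHes.LocNF
import Fermat.Agent.S35.Seams2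

set_option autoImplicit false
set_option linter.style.haveILetI false
set_option linter.unusedSectionVars false
set_option linter.unusedVariables false

noncomputable section

namespace Fermat.Agent.S35

open Fermat.Agent.SS Fermat.Agent.JT3 IntermediateField ModularCurve IsLocalRing AlgebraicCurve

local notation "GQ" => (AlgebraicClosure ℚ ≃ₐ[ℚ] AlgebraicClosure ℚ)
local notation "Qb" => AlgebraicClosure ℚ

section NFH

variable (N' q : ℕ) [NeZero N'] [NeZero q] [hq : Fact q.Prime] (hq3 : ¬ 3 ∣ q) (hqN' : ¬ q ∣ N')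

set_option synthInstance.maxHeartbeats 200000 in
set_option maxHeartbeats 1600000 in
/-- **(T-H): `s35h_ToricNF1` for the Hesse tower** (no hypothesis). -/
theorem s35fh_toricNF1 : s35h_ToricNF1 N' q hq3 hqN' := by
  classical
  intro A hAq φ hφ
  haveI : NeZero (3 * N') := ⟨Nat.mul_ne_zero (by norm_num) (NeZero.ne N')⟩
  obtain ⟨ζ', hζ'⟩ := HasEnoughRootsOfUnity.exists_primitiveRoot Qb (3 * N')
  have hq3N : ¬ q ∣ 3 * N' := by
    intro h
    rcases (Nat.Prime.dvd_mul hq.out).1 h with h | h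
    · have : q = 3 := (Nat.prime_dvd_prime_iff_eq hq.out Nat.prime_three).1 h
      exact hq3 (this ▸ dvd_rfl)
    · exact hqN' h
  refine ⟨{ζ'}, ?_, fun L1 hfd hsub hfix => ?_⟩
  · intro t ht s hs
    rw [Finset.mem_singleton] at ht
    rw [ht]
    exact s35d_root_fixed A q hAq hq3N hζ'.pow_eq_one hs
  intro _ _ h3O hπ φ1 hφ1 m hqm hζm
  have hζmem : ζ' ∈ L1 := hsub (by simp)
  haveI : NumberField ↥L1 := { to_charZero := inferInstance, to_finiteDimensional := hfd }
  have hζ : IsPrimitiveRoot (⟨ζ', hζmem⟩ : ↥L1) (3 * N') :=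
    (IsPrimitiveRoot.map_iff_of_injective (f := algebraMap ↥L1 Qb)
      (FaithfulSMul.algebraMap_injective ↥L1 Qb)).1 hζ'
  have hFrob := s35fh_frobAt_of_coe hφ L1 φ1 hφ1
  have hm0 : m ≠ 0 := by
    rintro rfl
    exact hqm (dvd_zero q)
  have hmem := lg_natCast_mem_maximalIdeal A hAq ↥L1
  have hm : IsUnit ((m : ℕ) : ↥(A.comap (algebraMap ↥L1 Qb))) := by
    have hcop : Nat.Coprime m q := by
      rw [Nat.coprime_comm, Nat.Prime.coprime_iff_not_dvd hq.out]
      exact hqm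
    exact lg_isUnit_natCast hmem hcop
  exact s35fh_toricAt_of_loc ↥L1 three_ne_zero (A.comap (algebraMap ↥L1 Qb)) h3O hπ N' q hq3 hqN'
    ⟨ζ', hζmem⟩ hζ φ1 hFrob m hm
    (s35fh_loc ↥L1 three_ne_zero (A.comap (algebraMap ↥L1 Qb)) h3O N' q hq3 hqN' hπ
      ⟨ζ', hζmem⟩ hζ φ1 hFrob m hm0)

end NFH

end Fermat.Agent.S35
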